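/-
S48 wall (W), block G-RED, seat G-IGUSA, leaf IG-INV (helper31): the ALGEBRAIC CORE of the
`q`-expansion principle in level one (`B^G = A[j]`).

`A` a valuation subring of a field `K`, `J ∈ K((u))` a series with coefficients in `A`, with a
pole and leading coefficient `1` (e.g. `J = j(q) = u^{-m} + 744 + ⋯`).

* `IsIntK A f` : all coefficients of `f ∈ K((u))` lie in `A`  (`isIntK_iff_mem_range`: `f` is in
  the range of `emb A`);
* `ig_coeff_aeval_natDegree` : the coefficient of `P(J)` at `deg P · ord J` is the leading
  coefficient of `P`;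
* `ig_coeff_mem_of_isIntK_aeval` : **if `P ∈ K[X]` and `P(J)` has coefficients in `A`, then
  `P ∈ A[X]`**;
* `ig_exists_polyA` : the same, with the polynomial over `A`.
-/
import Mathlib
import Fermat.Agent.MUL.Orig.Lib.GaussInt.ValGroup
import Fermat.Agent.MUL.S48.G1.Main

set_option autoImplicit false

noncomputable section

namespace Fermat.Agent.S48WG

open ModularCurve HahnSeries Polynomial Fermat.Agent.GaussInt

variable {K : Type*} [Field K] (A : ValuationSubring K)

/-- the series with coefficients in `A`. -/
def IsIntK (f : LaurentSeries K) : Prop := ∀ n, f.coeff n ∈ A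

variable {A}

theorem isIntK_iff_mem_range {f : LaurentSeries K} : IsIntK A f ↔ f ∈ (emb A).range := by
  constructor
  · intro h
    exact ⟨liftA A f h, emb_liftA A f h⟩
  · rintro ⟨Y, rfl⟩ n
    rw [emb_coeff]
    exact (Y.coeff n).2

theorem IsIntK.mul {f g : LaurentSeries K} (hf : IsIntK A f) (hg : IsIntK A g) :
    IsIntK A (f * g) := by
  rw [isIntK_iff_mem_range] at hf hg ⊢
  exact mul_mem hf hg

theorem IsIntK.pow {f : LaurentSeries K} (hf : IsIntK A f) (n : ℕ) : IsIntK A (f ^ n) := by
  rw [isIntK_iff_mem_range] at hf ⊢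
  exact pow_mem hf n

theorem IsIntK.sub {f g : LaurentSeries K} (hf : IsIntK A f) (hg : IsIntK A g) :
    IsIntK A (f - g) := by
  rw [isIntK_iff_mem_range] at hf hg ⊢
  exact sub_mem hf hg

theorem IsIntK.add {f g : LaurentSeries K} (hf : IsIntK A f) (hg : IsIntK A g) :
    IsIntK A (f + g) := by
  rw [isIntK_iff_mem_range] at hf hg ⊢
  exact add_mem hf hg

theorem ig_algebraMap_eq_single (c : K) :
    algebraMap K (LaurentSeries K) c = HahnSeries.single 0 c := by
  have h1 : algebraMap K (PowerSeries K) c = PowerSeries.C c := by simp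
  rw [HahnSeries.algebraMap_apply', h1, HahnSeries.ofPowerSeries_C]
  rfl

theorem ig_coeff_algebraMap_mul (c : K) (f : LaurentSeries K) (n : ℤ) :
    (algebraMap K (LaurentSeries K) c * f).coeff n = c * f.coeff n := by
  rw [ig_algebraMap_eq_single, HahnSeries.coeff_single_zero_mul]

theorem IsIntK.algebraMap_mul {f : LaurentSeries K} (hf : IsIntK A f) {c : K} (hc : c ∈ A) :
    IsIntK A (algebraMap K (LaurentSeries K) c * f) := by
  intro n
  rw [ig_coeff_algebraMap_mul]
  exact mul_mem hc (hf n)

/-- the coefficient of `J ^ i` at `n • ord J` vanishes for `i < n`, when `ord J < 0`. -/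
theorem ig_coeff_pow_eq_zero_of_lt {J : LaurentSeries K} (hord : J.order < 0) {i n : ℕ}
    (h : i < n) : (J ^ i).coeff (n • J.order) = 0 := by
  apply HahnSeries.coeff_eq_zero_of_lt_order
  rw [HahnSeries.order_pow]
  have h1 : (i : ℤ) < n := by exact_mod_cast h
  simp only [nsmul_eq_mul]
  nlinarith

theorem ig_coeff_pow_self {J : LaurentSeries K} (hlead : J.leadingCoeff = 1) (n : ℕ) :
    (J ^ n).coeff (n • J.order) = 1 := by
  have h1 : (J ^ n).leadingCoeff = 1 := by
    induction n with
    | zero => simp
    | succ n ih => rw [pow_succ, HahnSeries.leadingCoeff_mul, ih, hlead, mul_one]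
  rw [HahnSeries.leadingCoeff_eq, HahnSeries.order_pow] at h1
  exact h1

/-- the top coefficient of `P(J)`. -/
theorem ig_coeff_aeval_natDegree {J : LaurentSeries K} (hord : J.order < 0)
    (hlead : J.leadingCoeff = 1) (P : K[X]) :
    (Polynomial.aeval J P).coeff (P.natDegree • J.order) = P.leadingCoeff := by
  rw [Polynomial.aeval_eq_sum_range, ]
  have : ∀ (s : Finset ℕ) (f : ℕ → LaurentSeries K) (g : ℤ),
      (∑ i ∈ s, f i).coeff g = ∑ i ∈ s, (f i).coeff g := by
    intro s f g
    induction s using Finset.induction_on with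
    | empty => simp
    | insert a s ha ih => rw [Finset.sum_insert ha, Finset.sum_insert ha, HahnSeries.coeff_add, ih]
  rw [this, Finset.sum_range_succ, Finset.sum_eq_zero, zero_add, Algebra.smul_def,
    ig_coeff_algebraMap_mul, ig_coeff_pow_self hlead, mul_one]
  · rfl
  · intro i hi
    rw [Algebra.smul_def, ig_coeff_algebraMap_mul,
      ig_coeff_pow_eq_zero_of_lt hord (Finset.mem_range.mp hi), mul_zero]

/-- **the `q`-expansion principle in level one** (algebraic core): a polynomial in `J`
(`J` with coefficients in `A`, a pole, leading coefficient `1`) whose expansion has coefficients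
in `A` has coefficients in `A`. -/
theorem ig_coeff_mem_of_isIntK_aeval {J : LaurentSeries K} (hJ : IsIntK A J) (hord : J.order < 0)
    (hlead : J.leadingCoeff = 1) :
    ∀ (P : K[X]), IsIntK A (Polynomial.aeval J P) → ∀ i, P.coeff i ∈ A := by
  intro P
  induction h : P.natDegree using Nat.strong_induction_on generalizing P with
  | _ n ih =>
    intro hP i
    by_cases hP0 : P = 0
    · rw [hP0, Polynomial.coeff_zero]
      exact A.zero_mem
    have hc : P.leadingCoeff ∈ A := by
      rw [← ig_coeff_aeval_natDegree hord hlead P]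
      exact hP _
    by_cases hn : P.natDegree = 0
    · rw [Polynomial.eq_C_of_natDegree_eq_zero hn, Polynomial.coeff_C]
      split_ifs
      · rw [Polynomial.leadingCoeff, hn] at hc
        exact hc
      · exact A.zero_mem
    -- erase the leading term
    have hlt : P.eraseLead.natDegree < n := by
      rw [← h]
      exact Polynomial.eraseLead_natDegree_lt_or_eraseLead_eq_zero P |>.elim id
        (fun h0 => by rw [h0, Polynomial.natDegree_zero]; omega)
    have hint : IsIntK A (Polynomial.aeval J P.eraseLead) := by
      have e : P.eraseLead = P - Polynomial.C P.leadingCoeff * Polynomial.X ^ P.natDegree := by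
        rw [← Polynomial.self_sub_C_mul_X_pow]
      rw [e, map_sub, map_mul, Polynomial.aeval_C, map_pow, Polynomial.aeval_X]
      exact hP.sub ((hJ.pow _).algebraMap_mul hc)
    have key := ih _ hlt P.eraseLead rfl hint i
    by_cases hi : i = P.natDegree
    · rw [hi]
      exact hc
    · rwa [Polynomial.eraseLead_coeff_of_ne i hi] at key

/-- the same, with the polynomial over `A`. -/
theorem ig_exists_polyA {J : LaurentSeries K} (hJ : IsIntK A J)
    (hord : J.order < 0) (hlead : J.leadingCoeff = 1) (P : K[X])
    (hP : IsIntK A (Polynomial.aeval J P)) :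
    ∃ P₀ : Polynomial A, P₀.map A.subtype = P := by
  have hc := ig_coeff_mem_of_isIntK_aeval hJ hord hlead P hP
  have hmem : P ∈ Polynomial.lifts A.subtype := by
    rw [Polynomial.lifts_iff_coeff_lifts]
    intro n
    exact ⟨⟨P.coeff n, hc n⟩, rfl⟩
  obtain ⟨P₀, hP₀⟩ := (Polynomial.mem_lifts P).mp hmem
  exact ⟨P₀, hP₀⟩

/-- `J` is transcendental: a polynomial vanishing at `J` is zero. -/
theorem ig_eq_zero_of_aeval_eq_zero {J : LaurentSeries K} (hord : J.order < 0)
    (hlead : J.leadingCoeff = 1) (P : K[X]) (hP : Polynomial.aeval J P = 0) : P = 0 := by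
  have h := ig_coeff_aeval_natDegree hord hlead P
  rw [hP, HahnSeries.coeff_zero] at h
  exact Polynomial.leadingCoeff_eq_zero.mp h.symm

end Fermat.Agent.S48WG
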