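/-
S48 wall (W), block G-RED, seat IG-DIST (helper9), part 1: roots of unity are distinct modulo a
valuation subring in which the order is a unit (pure Mathlib, generic).

`K` a field, `A` a valuation subring, `ζ` a primitive `M`-th root of unity, `M` a unit of `A`.
* `igu_val_one_sub`  : `s ≠ 0 → A.valuation (1 - ζ ^ s.val) = 1`   (`s : ZMod M`);
* `igu_val_sub`      : `s ≠ t → A.valuation (ζ ^ s.val - ζ ^ t.val) = 1`;
* `igu_val_trace_sub`: `s ≠ t → s ≠ -t →`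
    `A.valuation ((ζ ^ s.val + ζ ^ (-s).val) - (ζ ^ t.val + ζ ^ (-t).val)) = 1`;
* `igu_val_frac_sub` : the same for `x / (1 - x) ^ 2`, `x = ζ ^ s.val`, `s, t ≠ 0`.
-/
import Mathlib
import Fermat.Agent.MUL.Orig.S48.Rankin.Bessel

set_option autoImplicit false

namespace Fermat.Agent.S48WG

open Finset

variable {K : Type*} [Field K]

section roots

variable {M : ℕ} [NeZero M] {ζ : K}

omit [NeZero M] in
theorem igu_pow_mod (hζ : ζ ^ M = 1) (k : ℕ) : ζ ^ (k % M) = ζ ^ k := by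
  conv_rhs => rw [← Nat.mod_add_div k M]
  rw [pow_add, pow_mul, hζ, one_pow, mul_one]

omit [NeZero M] in
theorem igu_pow_val_natCast (hζ : ζ ^ M = 1) (k : ℕ) : ζ ^ ((k : ZMod M)).val = ζ ^ k := by
  rw [ZMod.val_natCast, igu_pow_mod hζ]

theorem igu_pow_val_add (hζ : ζ ^ M = 1) (s t : ZMod M) :
    ζ ^ (s + t).val = ζ ^ s.val * ζ ^ t.val := by
  rw [ZMod.val_add, igu_pow_mod hζ, pow_add]

omit [NeZero M] in
theorem igu_pow_val_zero : ζ ^ (0 : ZMod M).val = 1 := by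
  rw [ZMod.val_zero, pow_zero]

theorem igu_pow_val_neg_mul (hζ : ζ ^ M = 1) (s : ZMod M) :
    ζ ^ (-s).val * ζ ^ s.val = 1 := by
  rw [← igu_pow_val_add hζ, neg_add_cancel, igu_pow_val_zero]

theorem igu_pow_val_ne_zero (hζ : ζ ^ M = 1) (s : ZMod M) : ζ ^ s.val ≠ 0 := by
  intro h
  have := igu_pow_val_neg_mul hζ s
  rw [h, mul_zero] at this
  exact zero_ne_one this

theorem igu_pow_val_neg (hζ : ζ ^ M = 1) (s : ZMod M) :
    ζ ^ (-s).val = (ζ ^ s.val)⁻¹ :=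
  eq_inv_of_mul_eq_one_left (igu_pow_val_neg_mul hζ s)

omit [NeZero M] in
theorem igu_pow_val_mul (hζ : ζ ^ M = 1) (s : ZMod M) (m : ℕ) :
    ζ ^ (s.val * m) = ζ ^ ((m : ZMod M) * s).val := by
  rw [← igu_pow_mod hζ (s.val * m), ZMod.val_mul, ZMod.val_natCast]
  conv_rhs => rw [← igu_pow_mod hζ, Nat.mod_mod, Nat.mul_mod, Nat.mod_mod, ← Nat.mul_mod]
  rw [mul_comm]

theorem igu_pow_val_eq_one_iff (hζ : IsPrimitiveRoot ζ M) (s : ZMod M) :
    ζ ^ s.val = 1 ↔ s = 0 := by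
  rw [hζ.pow_eq_one_iff_dvd]
  constructor
  · intro h
    have h0 : s.val = 0 := Nat.eq_zero_of_dvd_of_lt h (ZMod.val_lt s)
    exact (ZMod.val_eq_zero s).1 h0
  · rintro rfl
    simp

theorem igu_pow_val_inj (hζ : IsPrimitiveRoot ζ M) {s t : ZMod M}
    (h : ζ ^ s.val = ζ ^ t.val) : s = t := by
  have := hζ.pow_inj (ZMod.val_lt s) (ZMod.val_lt t) h
  exact ZMod.val_injective M this

end roots

section val

variable (A : ValuationSubring K) {M : ℕ} [NeZero M] {ζ : K}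

theorem igu_val_zeta (hζ : ζ ^ M = 1) : A.valuation ζ = 1 := by
  have h : (A.valuation ζ) ^ M = 1 := by rw [← map_pow, hζ, map_one]
  exact (pow_eq_one_iff_left (NeZero.ne M)).mp h

theorem igu_val_pow (hζ : ζ ^ M = 1) (k : ℕ) : A.valuation (ζ ^ k) = 1 := by
  rw [map_pow, igu_val_zeta A hζ, one_pow]

theorem igu_val_one_sub_le (hζ : ζ ^ M = 1) (k : ℕ) : A.valuation (1 - ζ ^ k) ≤ 1 := by
  refine (A.valuation.map_sub _ _).trans ?_
  rw [map_one, igu_val_pow A hζ, max_self]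

/-- `1 - ζ ^ k` is a unit of `A` when `M` is one and `M ∤ k`. -/
theorem igu_val_one_sub_pow (hζ : IsPrimitiveRoot ζ M) (hM : A.valuation (M : K) = 1)
    {k : ℕ} (hk : ¬ M ∣ k) : A.valuation (1 - ζ ^ k) = 1 := by
  have h1 : ζ ^ M = 1 := hζ.pow_eq_one
  rw [← igu_pow_mod h1 k]
  have hkpos : 0 < k % M := Nat.pos_of_ne_zero fun h => hk (Nat.dvd_of_mod_eq_zero h)
  have hklt : k % M < M := Nat.mod_lt _ (Nat.pos_of_ne_zero (NeZero.ne M))
  obtain ⟨n, hn⟩ : ∃ n, M = n + 1 := ⟨M - 1, by have := NeZero.pos M; omega⟩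
  obtain ⟨j, hj⟩ : ∃ j, k % M = j + 1 := ⟨k % M - 1, by omega⟩
  have hjn : j ∈ range n := by rw [mem_range]; omega
  have hprod : ∏ i ∈ range n, (1 - ζ ^ (i + 1)) = (M : K) := by
    have := (hn ▸ hζ : IsPrimitiveRoot ζ (n + 1)).prod_one_sub_pow_eq_order
    rw [this, hn]; push_cast; rfl
  rw [← mul_prod_erase _ _ hjn] at hprod
  have hv := congrArg A.valuation hprod
  rw [map_mul, hM, map_prod] at hv
  have hle1 : A.valuation (1 - ζ ^ (j + 1)) ≤ 1 := igu_val_one_sub_le A h1 _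
  have hle2 : ∏ i ∈ (range n).erase j, A.valuation (1 - ζ ^ (i + 1)) ≤ 1 :=
    Finset.prod_le_one' fun i _ => igu_val_one_sub_le A h1 _
  rw [hj]
  rcases hle1.lt_or_eq with hlt | heq
  · exfalso
    have : A.valuation (1 - ζ ^ (j + 1)) *
        ∏ i ∈ (range n).erase j, A.valuation (1 - ζ ^ (i + 1)) < 1 := by
      calc _ ≤ A.valuation (1 - ζ ^ (j + 1)) * 1 := mul_le_mul_right hle2 _
        _ = A.valuation (1 - ζ ^ (j + 1)) := mul_one _
        _ < 1 := hlt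
    exact absurd hv this.ne
  · exact heq

theorem igu_val_one_sub (hζ : IsPrimitiveRoot ζ M) (hM : A.valuation (M : K) = 1)
    {s : ZMod M} (hs : s ≠ 0) : A.valuation (1 - ζ ^ s.val) = 1 := by
  refine igu_val_one_sub_pow A hζ hM fun h => hs ?_
  have h0 : s.val = 0 := Nat.eq_zero_of_dvd_of_lt h (ZMod.val_lt s)
  exact (ZMod.val_eq_zero s).1 h0

theorem igu_val_sub (hζ : IsPrimitiveRoot ζ M) (hM : A.valuation (M : K) = 1)
    {s t : ZMod M} (hst : s ≠ t) : A.valuation (ζ ^ s.val - ζ ^ t.val) = 1 := by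
  have h1 : ζ ^ M = 1 := hζ.pow_eq_one
  have h : ζ ^ s.val - ζ ^ t.val = - (ζ ^ t.val * (1 - ζ ^ (s - t).val)) := by
    rw [sub_eq_add_neg s t, igu_pow_val_add h1, igu_pow_val_neg h1]
    field_simp [igu_pow_val_ne_zero h1 t]
    ring
  rw [h, Valuation.map_neg, map_mul, igu_val_pow A h1, one_mul]
  exact igu_val_one_sub A hζ hM (sub_ne_zero.2 hst)

theorem igu_val_trace_sub (hζ : IsPrimitiveRoot ζ M) (hM : A.valuation (M : K) = 1)
    {s t : ZMod M} (hst : s ≠ t) (hst' : s ≠ -t) :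
    A.valuation ((ζ ^ s.val + ζ ^ (-s).val) - (ζ ^ t.val + ζ ^ (-t).val)) = 1 := by
  have h1 : ζ ^ M = 1 := hζ.pow_eq_one
  have hs0 := igu_pow_val_ne_zero h1 s
  have ht0 := igu_pow_val_ne_zero h1 t
  have h : (ζ ^ s.val + ζ ^ (-s).val) - (ζ ^ t.val + ζ ^ (-t).val)
      = (ζ ^ s.val - ζ ^ t.val) * (1 - ζ ^ (-s + -t).val) := by
    rw [igu_pow_val_add h1, igu_pow_val_neg h1, igu_pow_val_neg h1]
    field_simp
    ring
  rw [h, map_mul, igu_val_sub A hζ hM hst, one_mul]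
  refine igu_val_one_sub A hζ hM fun h0 => hst' ?_
  have : s + t = 0 := by
    have := congrArg Neg.neg h0
    simpa [add_comm] using this
  exact eq_neg_of_add_eq_zero_left this

theorem igu_val_frac (hζ : IsPrimitiveRoot ζ M) (hM : A.valuation (M : K) = 1)
    {s : ZMod M} (hs : s ≠ 0) :
    A.valuation (ζ ^ s.val / (1 - ζ ^ s.val) ^ 2) = 1 := by
  simp only [map_div₀, map_pow, igu_val_one_sub A hζ hM hs, igu_val_zeta A hζ.pow_eq_one,
    one_pow, div_one]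

theorem igu_val_frac_sub (hζ : IsPrimitiveRoot ζ M) (hM : A.valuation (M : K) = 1)
    {s t : ZMod M} (hs : s ≠ 0) (ht : t ≠ 0) (hst : s ≠ t) (hst' : s ≠ -t) :
    A.valuation (ζ ^ s.val / (1 - ζ ^ s.val) ^ 2 - ζ ^ t.val / (1 - ζ ^ t.val) ^ 2) = 1 := by
  have h1 : ζ ^ M = 1 := hζ.pow_eq_one
  have hs1 : (1 - ζ ^ s.val) ≠ 0 := fun h =>
    hs ((igu_pow_val_eq_one_iff hζ s).1 (sub_eq_zero.1 h).symm)
  have ht1 : (1 - ζ ^ t.val) ≠ 0 := fun h =>
    ht ((igu_pow_val_eq_one_iff hζ t).1 (sub_eq_zero.1 h).symm)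
  have h : ζ ^ s.val / (1 - ζ ^ s.val) ^ 2 - ζ ^ t.val / (1 - ζ ^ t.val) ^ 2
      = (ζ ^ s.val - ζ ^ t.val) * (1 - ζ ^ (s + t).val) /
          ((1 - ζ ^ s.val) ^ 2 * (1 - ζ ^ t.val) ^ 2) := by
    rw [igu_pow_val_add h1]
    field_simp
    ring
  have hst0 : s + t ≠ 0 := fun h0 => hst' (eq_neg_of_add_eq_zero_left h0)
  rw [h, map_div₀, map_mul, map_mul, map_pow, map_pow, igu_val_sub A hζ hM hst,
    igu_val_one_sub A hζ hM hst0, igu_val_one_sub A hζ hM hs, igu_val_one_sub A hζ hM ht]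
  simp

end val

end Fermat.Agent.S48WG
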